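import Mathlib
import Fermat.Agent.H25.SelF

set_option autoImplicit false
set_option linter.unusedSectionVars false
set_option linter.style.haveILetI false

/-!
# The local cohomology at an auxiliary prime `r ≡ -1 mod p` with nonzero Frobenius trace

All local classes are unramified, so that no local condition is needed.
-/

namespace Fermat.Agent.H06

open Fermat.Agent.H25 Fermat.Agent.H25.PR Fermat.Agent.CC Fermat.Agent.TW IsLocalRing Matrix
open Fermat.Agent.H05 Fermat.Agent.H25.TR Fermat.Agent.H25.TWM Fermat.Agent.H25.GD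
open Fermat.Agent.H25.PT Fermat.Agent.H19 Fermat.Agent.H25.GE Fermat.Agent.H25.SB
open Fermat.Agent.H04 (DN M2)
open scoped Pointwise

section LinAlg

variable {k : Type*} [Field k]

/-- a matrix anticommuting with an invertible matrix of nonzero trace vanishes -/
theorem eq_zero_of_anticomm (h2 : (2 : k) ≠ 0) {C C' X : Mt k} (hC : C' * C = 1)
    (ht : C.trace ≠ 0) (hX : C * X = -(X * C)) : X = 0 := by
  have h3 : C * C * X = X * (C * C) := by
    rw [mul_assoc, hX, mul_neg, ← mul_assoc, hX, neg_mul, neg_neg, mul_assoc]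
  rw [cayley, sub_mul, mul_sub, smul_mul_assoc, smul_mul_assoc, one_mul, mul_smul_comm,
    mul_smul_comm, mul_one, sub_left_inj, hX, smul_neg] at h3
  have h4 : (2 : k) • (C.trace • (X * C)) = 0 := by
    rw [two_smul]
    nth_rewrite 1 [← h3]
    exact neg_add_cancel _
  have h5 : X * C = 0 :=
    (smul_eq_zero.1 ((smul_eq_zero.1 h4).resolve_left h2)).resolve_left ht
  have h6 : C * X = 0 := by rw [hX, h5, neg_zero]
  calc X = C' * C * X := by rw [hC, one_mul]
    _ = C' * (C * X) := mul_assoc _ _ _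
    _ = 0 := by rw [h6, mul_zero]

end LinAlg

/-- **the whole local cohomology at an auxiliary prime** -/
theorem card_H1_aux {k : Type*} [Field k] [Finite k] {p : ℕ} [CharP k p] (hp : p.Prime)
    (hp2 : p ≠ 2) {r : GQ →* Mt k} (hr : lev.isOpen r.ker) {q : ℕ} (hq : q.Prime) (hpq : p ≠ q)
    (hq1 : (q : k) = -1) {A : ValuationSubring Qb} (hA : A.LiesOverPrime q)
    (hI : ∀ τ ∈ A.inertiaSubgroupIn ℚ, r τ = 1)
    {φ : GQ} (hφ : A.IsFrobeniusAt φ q) (ht : (r φ).trace ≠ 0) :
    Finite (H1 (lev.sub (A.decompositionSubgroup ℚ)) (Ad0 r (1 : GQ →* k))) ∧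
    Nat.card (H1 (lev.sub (A.decompositionSubgroup ℚ)) (Ad0 r (1 : GQ →* k))) ≤
      Nat.card (H0 (A.decompositionSubgroup ℚ) (Ad0 r (1 : GQ →* k))) := by
  have : Fact p.Prime := ⟨hp⟩
  have h2 : (2 : k) ≠ 0 := by simpa using cast_ne_zero (k := k) (p := p) Nat.prime_two hp2
  have hpM : ∀ m : Ad0 r (1 : GQ →* k), p • m = 0 := by
    intro m
    have : (p : k) • m = 0 := by rw [CharP.cast_eq_zero, zero_smul]
    rwa [Nat.cast_smul_eq_nsmul] at this
  obtain ⟨h3, h4⟩ := card_tame_le (M := Ad0 r (1 : GQ →* k)) hq hA hφ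
    (smooth_Ad0 hr fun g _ => rfl) hp hpq hpM
    (fun τ hτ m => Ad0.smul_of_trivial (hI τ hτ) rfl m)
  have key : ∀ m : Ad0 r (1 : GQ →* k), φ • m = q • m → m = 0 := by
    intro m hm
    have hqm : q • m = -m := by
      rw [← Nat.cast_smul_eq_nsmul k, hq1, neg_smul, one_smul]
    rw [hqm] at hm
    have h6 := congrArg (fun x => x.val * r φ) hm
    beta_reduce at h6
    rw [Ad0.val_gsmul, MonoidHom.one_apply, one_smul, mul_assoc, r_inv_mul, mul_one, Ad0.val_neg,
      neg_mul] at h6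
    exact Ad0.ext (eq_zero_of_anticomm h2 (r_inv_mul r φ) ht h6)
  have h5 : Nat.card {m : Ad0 r (1 : GQ →* k) // φ • m = q • m} ≤ 1 := by
    have : Subsingleton {m : Ad0 r (1 : GQ →* k) // φ • m = q • m} :=
      ⟨fun a b => Subtype.ext ((key a.1 a.2).trans (key b.1 b.2).symm)⟩
    exact Finite.card_le_one_iff_subsingleton.2 this
  refine ⟨h3, h4.trans ?_⟩
  calc _ ≤ _ * 1 := Nat.mul_le_mul_left _ h5
    _ = _ := mul_one _

/-- **no local condition is needed at an auxiliary prime** -/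
theorem laux {O : Type} [CommRing O] [IsLocalRing O] [Finite (ResidueField O)] {p : ℕ}
    [CharP (ResidueField O) p] (hp : p.Prime) (hp2 : p ≠ 2)
    {rb : GQ →* Mt (ResidueField O)} (hr : lev.isOpen rb.ker) (q : Nat.Primes)
    (hpq : p ≠ q) (hI : ∀ τ ∈ (plv q q.2).inertiaSubgroupIn ℚ, rb τ = 1)
    (hq1 : ((q : ℕ) : ResidueField O) = -1) (htr : (rb (frv q q.2)).trace ≠ 0) :
    LCond (plv q q.2) rb 0 (fun _ => True) := by
  obtain ⟨h1, h2⟩ := card_H1_aux hp hp2 hr q.2 hpq hq1 (plv_over q q.2) hI (frv_spec q q.2) htr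
  have e := Nat.card_congr (AddSubgroup.topEquiv (G := H1
    (lev.sub ((plv q q.2).decompositionSubgroup ℚ)) (Ad0 rb (1 : GQ →* ResidueField O)))).toEquiv
  refine ⟨⊤, Finite.of_injective _ Subtype.val_injective, ?_, fun _ _ _ _ _ _ =>
    AddSubgroup.mem_top _⟩
  rw [e, pow_zero, one_mul]
  exact h2

end Fermat.Agent.H06
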