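import Mathlib
import Fermat.Agent.H06.AuxR
import Fermat.Agent.H26U.Def
import Fermat.Agent.H12.LL.NL
import Fermat.Agent.H24R.AuxPrime
import Fermat.Agent.TFin.LiftSetup

set_option autoImplicit false
set_option linter.unusedSectionVars false
set_option linter.style.haveILetI false

/-!
# Auxiliary primes for semistable curves at `p = 3`
-/

namespace Fermat.Agent.H06

open Fermat.Agent.H25 Fermat.Agent.H25.PR Fermat.Agent.CC Fermat.Agent.TW IsLocalRing Matrix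
open Fermat.Agent.H05 Fermat.Agent.H25.TR Fermat.Agent.H25.TWM Fermat.Agent.H25.GD
open Fermat.Agent.H25.PT Fermat.Agent.H19 Fermat.Agent.H25.GE Fermat.Agent.H25.SB
open Fermat.Agent.H12.LL Fermat.Agent.TFin Fermat.Agent.LU Fermat.Agent.Ell
open scoped Pointwise

section

variable {W : WeierstrassCurve ℤ} {p : ℕ} [hp : Fact p.Prime]
  (hΔ : W.Δ ≠ 0) (hirr : W.ModRepIsIrreducible p) (hp2 : p ≠ 2)
  {O : Type} [CommRing O] [IsLocalRing O] [Algebra ℤ_[p] O] [IsLocalHom (algebraMap ℤ_[p] O)]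

/-- the residual trace -/
theorem trace_rbar_eq (g : GQ) [CharP (ResidueField O) p] :
    ((RDW hΔ hirr hp2 O).rbar g).trace = ZMod.castHom (dvd_refl p) (ResidueField O)
      (PadicInt.toZMod (LinearMap.trace ℤ_[p] (TT (WQ W) p) (rr (WQ W) p g))) := by
  rw [RD.trace_rbar, RDW_tbar, ringHom_padic (redk p O)]

theorem trace_rbar_sq_iff {q : ℕ} (g : GQ) :
    ((RDW hΔ hirr hp2 O).rbar g).trace ^ 2 = ((q : ResidueField O) + 1) ^ 2 ↔
      (PadicInt.toZMod (LinearMap.trace ℤ_[p] (TT (WQ W) p) (rr (WQ W) p g))) ^ 2 =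
        ((q : ZMod p) + 1) ^ 2 := by
  haveI := charP_res p O
  rw [trace_rbar_eq]
  have e : ((q : ResidueField O) + 1) ^ 2 =
      ZMod.castHom (dvd_refl p) (ResidueField O) (((q : ZMod p) + 1) ^ 2) := by
    rw [map_pow, map_add, map_natCast, map_one]
  rw [e, ← map_pow]
  exact (ZMod.castHom (dvd_refl p) (ResidueField O)).injective.eq_iff

/-- no local condition at an auxiliary prime for a semistable curve -/
theorem laux_W [Finite (ResidueField O)] (q : Nat.Primes) (h : AuxOk W p q)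
    (hq1 : ((q : ℕ) : ZMod p) = -1) (hU : lev.isOpen (RDW hΔ hirr hp2 O).rbar.ker) :
    LCond (plv q q.2) (RDW hΔ hirr hp2 O).rbar 0 (fun _ => True) := by
  haveI := charP_res p O
  have hq1' : ((q : ℕ) : ResidueField O) = -1 := by
    rw [← map_natCast (ZMod.castHom (dvd_refl p) (ResidueField O)), hq1, map_neg, map_one]
  refine laux hp.out hp2 hU q h.ne.symm
    (fun τ hτ => RDW_unr hΔ hirr hp2 h.unr (plv_over q q.2) hτ) hq1' fun h0 => ?_
  refine h.tr _ (plv_over q q.2) _ (frv_spec q q.2)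
    ((trace_rbar_sq_iff hΔ hirr hp2 (O := O) (frv q q.2)).1 ?_)
  rw [h0, hq1', neg_add_cancel]

end

section Three

variable {W : WeierstrassCurve ℤ}

theorem cast_of_mod3 {r : ℕ} (h : r % 3 = 2) : (r : ZMod 3) = -1 := by
  rw [← Nat.mod_add_div r 3, h, Nat.cast_add, Nat.cast_mul]
  have : ((3 : ℕ) : ZMod 3) = 0 := rfl
  rw [this, zero_mul, add_zero]
  rfl

/-- **existence of auxiliary primes**: `r ≡ 2 mod 3`, `r ∤ 3 n Δ`, and the trace of Frobenius at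
`r` on `W[3]` is not zero -/
theorem exists_aux3 (hΔ : W.Δ ≠ 0) (hss : W.IsSemistableModel)
    (hirr : W.ModRepIsIrreducible 3) {n : ℕ} (hn : n ≠ 0) : ∃ r : ℕ, Aux3 W r ∧ ¬ r ∣ n := by
  classical
  haveI : Fact (Nat.Prime 3) := ⟨Nat.prime_three⟩
  haveI : IsLocalHom (algebraMap ℤ_[3] ℤ_[3]) := ⟨fun _ h => h⟩
  have h32 : (3 : ℕ) ≠ 2 := by norm_num
  have hS : ∀ q : Nat.Primes, q ∉ bigS W 3 → UnrAt W 3 q := by
    intro q hq
    rw [mem_bigS hΔ Nat.prime_three, not_or] at hq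
    exact unrAt_of_good q.2 hq.2 fun h =>
      hq.1 ((Nat.prime_dvd_prime_iff_eq q.2 Nat.prime_three).1 h)
  haveI := charP_res 3 ℤ_[3]
  have hTW : TWData 3 (bigS W 3) (RDW hΔ hirr h32 ℤ_[3]).rbar (chiB hΔ hirr h32 ℤ_[3]) :=
    RDW_TWData hΔ hirr h32 hS (nLIn_of_semistable hss hΔ hirr h32 ℤ_[3])
  obtain ⟨q, hq, hqT, hq2, hA⟩ := H24R.exists_aux' hTW
    ((bigS W 3).image (fun q : Nat.Primes => (q : ℕ)) ∪ {3} ∪ n.primeFactors)
    (by simp) (fun q hq => by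
      rw [Finset.mem_union, Finset.mem_union, Finset.mem_image]
      exact Or.inl (Or.inl ⟨q, hq, rfl⟩))
  rw [Finset.mem_union, Finset.mem_union, not_or, not_or, Finset.mem_singleton] at hqT
  obtain ⟨⟨h1, h2⟩, h3⟩ := hqT
  have h4 : (⟨q, hq⟩ : Nat.Primes) ∉ bigS W 3 := fun h =>
    h1 (Finset.mem_image.2 ⟨_, h, rfl⟩)
  have hgood : W.IsGoodPrimeFor q := fun h => h4 ((mem_bigS hΔ Nat.prime_three).2 (Or.inr h))
  refine ⟨q, ⟨⟨h2, hS _ h4, fun A hA' φ hφ h5 => ?_⟩, hq, hq2, hgood⟩, fun h =>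
    h3 (Nat.mem_primeFactors.2 ⟨hq, h, hn⟩)⟩
  exact (hA A hA' φ hφ).2 ((trace_rbar_sq_iff hΔ hirr h32 (O := ℤ_[3]) φ).2 h5)

/-- version at `p = 3` -/
theorem laux3 (hΔ : W.Δ ≠ 0) [Fact (Nat.Prime 3)] (hirr : W.ModRepIsIrreducible 3)
    (h32 : (3 : ℕ) ≠ 2) {O : Type} [CommRing O] [IsLocalRing O] [Algebra ℤ_[3] O]
    [IsLocalHom (algebraMap ℤ_[3] O)] [Finite (ResidueField O)] {r : ℕ} (h : Aux3 W r)
    (hU : lev.isOpen (RDW hΔ hirr h32 O).rbar.ker) :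
    LCond (plv r h.prime) (RDW hΔ hirr h32 O).rbar 0 (fun _ => True) :=
  laux_W hΔ hirr h32 ⟨r, h.prime⟩ h.toAuxOk (cast_of_mod3 h.mod3) hU

end Three

end Fermat.Agent.H06
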