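import Fermat.Agent.H06.Aux3
import Fermat.Agent.H18O.LiftU

set_option autoImplicit false

/-!
# Auxiliary primes for semistable curves at `p = 3`, interface
-/

namespace Fermat.Agent.H06

open Fermat.Agent.LU

theorem exists_auxR [Fact (Nat.Prime 3)] {W : WeierstrassCurve ℤ} (hΔ : W.Δ ≠ 0)
    (hss : W.IsSemistableModel) (hirr : W.ModRepIsIrreducible 3) {n : ℕ} (hn : n ≠ 0) :
    ∃ r : ℕ, H18O.AuxR W 3 r ∧ ¬ r ∣ n := by
  obtain ⟨r, h, h2⟩ := exists_aux3 hΔ hss hirr (mul_ne_zero two_ne_zero hn)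
  exact ⟨r, ⟨h.prime, fun h3 => h2 (h3 ▸ dvd_mul_right _ _), h.ne, h.good, h.mod3, h.tr⟩,
    fun h3 => h2 (h3.mul_left _)⟩

theorem auxAll_three [Fact (Nat.Prime 3)] : H18O.AuxAll 3 := fun _ hΔ hss hirr => by
  obtain ⟨r, h, -⟩ := exists_auxR hΔ hss hirr one_ne_zero
  exact ⟨r, h⟩

end Fermat.Agent.H06
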